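/-
S26lib / Face / Point (helper9)  --  Project K (S26), cube kernel, step (M): brick (T12).

A non-empty closed subset `Z` of `T = V ×_K W` (`V` proper, `K = K̄`) which is locally cut out by one
equation meets one of the two faces `V × {w₀}`, `{v₀} × W` in a `K`-point.

* `primeOf_generic`, `genPt_bot` : the generic point of an integral scheme is the generisation
  attached to the zero ideal of any local ring;
* `codim_le_one_of_mem_minimalPrimes` (Krull's Hauptidealsatz, order form): for `𝔮` a minimal prime
  over a principal ideal of `O_{X,t}`, every irreducible closed subset containing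
  `closure {genPt t 𝔮}` is that closure or the whole space;
* `exists_face_point` : the statement above, by helper7's `Hub.exists_kPt_mem_face`.
-/
import Mathlib
import Fermat.Agent.S26lib.Hub.Faces
import Fermat.Agent.S26lib.Prod.Gen

set_option autoImplicit false

noncomputable section

universe u

open CategoryTheory CategoryTheory.Limits AlgebraicGeometry TopologicalSpace

namespace Fermat.Agent.S26lib.Face

open Fermat.Agent.S26lib.Prod

section Generic

variable {X : Scheme.{u}} [IsIntegral X]

/-- the prime of `O_{X,x}` attached to the generic point is the zero ideal -/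
theorem primeOf_generic {x : X} (h : genericPoint X ⤳ x) : (primeOf h).asIdeal = ⊥ := by
  refine le_antisymm (fun a ha => ?_) bot_le
  rw [mem_primeOf_iff] at ha
  have hfield : IsField (X.presheaf.stalk (genericPoint X)) :=
    Field.toIsField X.functionField
  rw [IsLocalRing.isField_iff_maximalIdeal_eq.mp hfield, Ideal.mem_bot] at ha
  have hinj : Function.Injective (X.presheaf.stalkSpecializes h).hom :=
    IsFractionRing.injective (X.presheaf.stalk x) X.functionField
  rw [Ideal.mem_bot]
  exact hinj (by rw [ha, map_zero])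

/-- the generisation attached to the zero ideal is the generic point -/
theorem genPt_of_asIdeal_eq_bot (x : X) {𝔮 : PrimeSpectrum (X.presheaf.stalk x)}
    (h𝔮 : 𝔮.asIdeal = ⊥) : genPt x 𝔮 = genericPoint X := by
  have h : genericPoint X ⤳ x := (genericPoint_spec X).specializes trivial
  have : 𝔮 = primeOf h := PrimeSpectrum.ext (by rw [h𝔮, primeOf_generic h])
  rw [this, genPt_primeOf]

variable [IsLocallyNoetherian X]

/-- **Krull's Hauptidealsatz in order form**: the closure of the generisation attached to a minimal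
prime over a principal ideal has codimension at most one. -/
theorem codim_le_one_of_mem_minimalPrimes (t : X) (g : X.presheaf.stalk t)
    (𝔮 : PrimeSpectrum (X.presheaf.stalk t))
    (h𝔮 : 𝔮.asIdeal ∈ (Ideal.span {g}).minimalPrimes)
    (S' : Set X) (hS'i : IsIrreducible S') (hS'c : IsClosed S')
    (hsub : closure {genPt t 𝔮} ⊆ S') : S' = closure {genPt t 𝔮} ∨ S' = Set.univ := by
  -- the generic point of `S'`
  have hgen : IsGenericPoint hS'i.genericPoint (closure S') :=
    hS'i.isGenericPoint_genericPoint_closure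
  rw [hS'c.closure_eq] at hgen
  set η' := hS'i.genericPoint with hη'
  have hS'eq : closure {η'} = S' := hgen
  have hspec1 : η' ⤳ genPt t 𝔮 := by
    rw [specializes_iff_mem_closure, hS'eq]
    exact hsub (subset_closure rfl)
  have hspec : η' ⤳ t := hspec1.trans (genPt_specializes t 𝔮)
  have hgenPt : genPt t (primeOf hspec) = η' := genPt_primeOf hspec
  have hle : primeOf hspec ≤ 𝔮 := by
    rw [← genPt_specializes_iff, hgenPt]
    exact hspec1
  rcases eq_or_lt_of_le hle with heq | hlt
  · left
    rw [← hS'eq, ← hgenPt, heq]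
  · right
    have hlt' : (primeOf hspec).asIdeal < 𝔮.asIdeal := hlt
    have h1 : 𝔮.asIdeal.height ≤ 1 :=
      Ideal.height_le_one_of_isPrincipal_of_mem_minimalPrimes (Ideal.span {g}) 𝔮.asIdeal h𝔮
    have h2 : (primeOf hspec).asIdeal.height < 𝔮.asIdeal.height :=
      Ideal.height_strict_mono_of_isPrime_of_isPrime hlt'
    have h3 : (primeOf hspec).asIdeal.height = 0 := by
      have : (primeOf hspec).asIdeal.height < 1 := lt_of_lt_of_le h2 h1
      exact Order.lt_one_iff.mp this
    have hbot : (primeOf hspec).asIdeal = ⊥ := Ideal.height_eq_zero_iff_eq_bot.mp h3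
    have hη : η' = genericPoint X := by
      rw [← hgenPt]; exact genPt_of_asIdeal_eq_bot t hbot
    rw [← hS'eq, hη]
    exact (genericPoint_spec X).def

end Generic

variable {K : Type u} [Field K] [IsAlgClosed K] {V W : Scheme.{u}}
  (sV : V ⟶ Spec (CommRingCat.of K)) (sW : W ⟶ Spec (CommRingCat.of K))

/-- **(T12)**: a non-empty closed subset of `V ×_K W` (`V` proper over `K = K̄`), locally cut out by one
equation, meets `{v₀} × W` or `V × {w₀}` in a `K`-point. -/
theorem exists_face_point [UniversallyClosed sV] [LocallyOfFiniteType sV] [LocallyOfFiniteType sW]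
    [IrreducibleSpace V] [IsIntegral (pullback sV sW)] [IsLocallyNoetherian (pullback sV sW)]
    (Z : Set ↥(pullback sV sW)) (hZ : IsClosed Z) (hne : Z.Nonempty)
    (hloc : ∀ t ∈ Z, ∃ g : (pullback sV sW).presheaf.stalk t,
      ∀ (t' : ↥(pullback sV sW)) (h : t' ⤳ t), (t' ∈ Z ↔ g ∈ (primeOf h).asIdeal))
    (v₀ : KPt sV) (w₀ : KPt sW) :
    ∃ t₁ : KPt (sProd sV sW), t₁.pt ∈ Z ∧
      (KPt.fstK sV sW t₁ = v₀ ∨ KPt.sndK sV sW t₁ = w₀) := by
  obtain ⟨t, htZ⟩ := hne
  obtain ⟨g, hg⟩ := hloc t htZ
  -- `g` lies in the maximal ideal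
  have hgm : g ∈ IsLocalRing.maximalIdeal ((pullback sV sW).presheaf.stalk t) := by
    have h0 := (hg t specializes_rfl).mp htZ
    rw [mem_primeOf_iff] at h0
    have hid : ((pullback sV sW).presheaf.stalkSpecializes (specializes_rfl : t ⤳ t)).hom g = g := by
      have := (pullback sV sW).presheaf.stalkSpecializes_refl t
      exact congrArg (fun φ => φ.hom g) this
    rwa [hid] at h0
  -- a minimal prime over `(g)`
  obtain ⟨𝔮, h𝔮min, -⟩ := Ideal.exists_minimalPrimes_le
    (I := Ideal.span {g}) (J := IsLocalRing.maximalIdeal ((pullback sV sW).presheaf.stalk t))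
    ((Ideal.span_singleton_le_iff_mem _).mpr hgm)
  have h𝔮p : 𝔮.IsPrime := h𝔮min.isPrime
  let 𝔮' : PrimeSpectrum ((pullback sV sW).presheaf.stalk t) := ⟨𝔮, h𝔮p⟩
  set s₁ := genPt t 𝔮' with hs₁
  have hs₁t : s₁ ⤳ t := genPt_specializes t 𝔮'
  have hs₁Z : s₁ ∈ Z := by
    rw [hg s₁ hs₁t, ← eq_primeOf hs₁t (𝔮 := 𝔮') rfl]
    exact h𝔮min.1.2 (Ideal.subset_span rfl)
  have hSZ : closure {s₁} ⊆ Z := hZ.closure_subset_iff.mpr (Set.singleton_subset_iff.mpr hs₁Z)
  obtain ⟨t₁, ht₁S, ht₁⟩ := Hub.exists_kPt_mem_face sV sW v₀ w₀ (S := closure {s₁})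
    isIrreducible_singleton.closure isClosed_closure
    (fun S' hS'i hS'c hsub =>
      codim_le_one_of_mem_minimalPrimes t g 𝔮' h𝔮min S' hS'i hS'c hsub)
  exact ⟨t₁, hSZ ht₁S, ht₁⟩

end Fermat.Agent.S26lib.Face
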