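/-
S26lib / Face / PrimeDiv (helper9)  --  Project K (S26), cube kernel, step (M): brick (T12+).

The form of (T12) called in the cube theorem: for a morphism `ψ : V ×_K W ⟶ X` to an integral locally
noetherian scheme with factorial local rings and a prime divisor `P` of `X` whose closure meets the
image of `ψ`, the closure of `P` contains the image of a `K`-point of one of the two faces.

* `exists_primeOf_eq_span` : the prime of `O_{X,x}` attached to a prime divisor through `x` is
  principal (`O_{X,x}` factorial);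
* `exists_face_point_of_primeDiv`.
-/
import Mathlib
import Fermat.Agent.S26lib.Face.Point
import Fermat.Agent.S26lib.Weil.Model
import Fermat.Agent.S26lib.VarSch.Dict

set_option autoImplicit false

noncomputable section

universe u

open CategoryTheory CategoryTheory.Limits AlgebraicGeometry TopologicalSpace

namespace Fermat.Agent.S26lib.Face

open Fermat.Agent.S26lib.Prod

/-- on a scheme with factorial local rings the prime ideal of `O_{X,x}` attached to a prime
divisor through `x` is principal -/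
theorem exists_primeOf_eq_span {X : Scheme.{u}} [IsIntegral X]
    (hufd : ∀ x : X, UniqueFactorizationMonoid (X.presheaf.stalk x))
    (P : Weil.PrimeDiv X) {x : X} (h : P.1 ⤳ x) :
    ∃ f : X.presheaf.stalk x, (primeOf h).asIdeal = Ideal.span {f} := by
  have := hufd x
  have hPη : P.1 ≠ genericPoint X :=
    VarSch.ne_generic_of_coheight_eq_one (Weil.coheight_primeDiv P)
  have hne : (primeOf h).asIdeal ≠ ⊥ := by
    intro hbot
    apply hPη
    rw [← genPt_primeOf h]
    exact genPt_of_asIdeal_eq_bot x hbot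
  obtain ⟨f, hf, hfp⟩ := (primeOf h).isPrime.exists_mem_prime_of_ne_bot hne
  refine ⟨f, ?_⟩
  have hf0 : f ≠ 0 := hfp.ne_zero
  have hprime : (Ideal.span {f}).IsPrime := (Ideal.span_singleton_prime hf0).mpr hfp
  let 𝔮 : PrimeSpectrum (X.presheaf.stalk x) := ⟨Ideal.span {f}, hprime⟩
  have hle : 𝔮 ≤ primeOf h := (Ideal.span_singleton_le_iff_mem _).mpr hf
  have hspec : genPt x 𝔮 ⤳ P.1 := by
    have := (genPt_specializes_iff x 𝔮 (primeOf h)).mpr hle
    rwa [genPt_primeOf h] at this
  have hyη : genPt x 𝔮 ≠ genericPoint X := by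
    intro hη
    have h1 : 𝔮 = primeOf ((genericPoint_spec X).specializes trivial : genericPoint X ⤳ x) :=
      eq_primeOf _ hη
    have h2 : 𝔮.asIdeal = ⊥ := by rw [h1]; exact primeOf_generic _
    have h3 : f ∈ (⊥ : Ideal (X.presheaf.stalk x)) := h2 ▸ Ideal.subset_span rfl
    exact hf0 (by simpa using h3)
  have heq : genPt x 𝔮 = P.1 :=
    VarSch.eq_of_specializes_of_coheight_eq_one hspec hyη (Weil.coheight_primeDiv P)
  have : 𝔮 = primeOf h := eq_primeOf h heq
  rw [← this]

variable {K : Type u} [Field K] [IsAlgClosed K] {V W : Scheme.{u}}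
  (sV : V ⟶ Spec (CommRingCat.of K)) (sW : W ⟶ Spec (CommRingCat.of K))

/-- **(T12+)**: if the closure of a prime divisor `P` of `X` meets the image of
`ψ : V ×_K W ⟶ X` (`V` proper over `K = K̄`, local rings of `X` factorial) then it contains the image
of a `K`-point of `{v₀} × W` or of `V × {w₀}`. -/
theorem exists_face_point_of_primeDiv [UniversallyClosed sV] [LocallyOfFiniteType sV]
    [LocallyOfFiniteType sW] [IrreducibleSpace V] [IsIntegral (pullback sV sW)]
    [IsLocallyNoetherian (pullback sV sW)] {X : Scheme.{u}} [IsIntegral X]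
    (hufd : ∀ x : X, UniqueFactorizationMonoid (X.presheaf.stalk x))
    (ψ : pullback sV sW ⟶ X) (P : Weil.PrimeDiv X) (t : ↥(pullback sV sW)) (ht : P.1 ⤳ ψ t)
    (v₀ : KPt sV) (w₀ : KPt sW) :
    ∃ t₁ : KPt (sProd sV sW), P.1 ⤳ ψ t₁.pt ∧
      (KPt.fstK sV sW t₁ = v₀ ∨ KPt.sndK sV sW t₁ = w₀) := by
  set Z : Set ↥(pullback sV sW) := {t' | P.1 ⤳ ψ t'} with hZdef
  have hZeq : Z = ψ ⁻¹' closure {P.1} := by
    ext t'
    exact specializes_iff_mem_closure
  have hZ : IsClosed Z := by
    rw [hZeq]
    exact isClosed_closure.preimage ψ.continuous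
  refine exists_face_point sV sW Z hZ ⟨t, ht⟩ (fun t₀ ht₀ => ?_) v₀ w₀
  have hx : P.1 ⤳ ψ t₀ := ht₀
  obtain ⟨f, hf⟩ := exists_primeOf_eq_span hufd P hx
  refine ⟨(ψ.stalkMap t₀).hom f, fun t' h' => ?_⟩
  show P.1 ⤳ ψ t' ↔ _
  have h1 : ψ t' = genPt (ψ t₀) (PrimeSpectrum.comap (ψ.stalkMap t₀).hom (primeOf h')) := by
    conv_lhs => rw [← genPt_primeOf h']
    exact map_genPt ψ t₀ (primeOf h')
  rw [h1]
  conv_lhs => rw [← genPt_primeOf hx]
  rw [genPt_specializes_iff]
  show (primeOf hx).asIdeal ≤ (PrimeSpectrum.comap (ψ.stalkMap t₀).hom (primeOf h')).asIdeal ↔ _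
  rw [hf, Ideal.span_singleton_le_iff_mem]
  rfl

end Fermat.Agent.S26lib.Face
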